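/-
Program MW-H (S17), INTEGRATION, third layer (helper80).

`Top7.HeightMain N` (and Mordell-Weil itself, given weak Mordell-Weil) from the contracts which are
still open on 2026-12-05 03:50Z:

* `X`   : the standing data `S : HSetup (modularFunctionFieldBar N)` with the arithmetic action;
* `U`   : `S.MasterUD` (master theorem);
* `HD`  : `S.HadamardUpper`;
* `P1c` : `S.RationalGenerator`.

Everything else is discharged by landed theorems: G0 `PairBasic2.pairFiniteSupport`, G1
`GlobalUD2.globalUD`, A0 `HnLower2.hnLower`, A2 `EpsComparison74.epsComparison`, T1a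
`CoordUpper62.coordUpper`, AD `AdjLower49.adjunctionLower`, E3 `VeryAmple49.veryAmple`, T1
`NorthcottTop62.northcottHn_of_masterUD`, P1a `MinRep16.minRepExists`, P1b
`MinRepStable16.minRepStable`, P3 `Positivity2.positivityP3`, QP `QuasiPar2.quasiParallelogram`,
top `Assemble7.heightMain_of_top`, `Top7.fg_of_contracts`.
Nothing new is proved: the file checks that the landed pieces fit together literally
(continuation of helper2's `Spec/Assemble2`).
-/
import Mathlib
import Fermat.Agent.MW.Spec.Assemble2
import Fermat.Agent.MW.Global.AdjLower49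
import Fermat.Agent.MW.Global.MinRepStable16
import Fermat.Agent.MW.Global.QuasiPar2

set_option autoImplicit false

open AlgebraicCurve ModularCurve

namespace Fermat.Agent.MW.Final.HeightWiring80

open Fermat.Agent.MW.Spec.Bricks7b Fermat.Agent.MW.Top7

section General

variable {F : Type} [Field F] [Algebra Qb F] [HasCanonicalDivisor (K := Qb) (F := F)]
variable (S : HSetup F)

/-- `P1a`. -/
theorem minRepExists : S.MinRepExists := Fermat.Agent.MW.Global.MinRep16.minRepExists S

/-- `P1b`. -/
theorem minRepStable : S.MinRepStable := Fermat.Agent.MW.Global.MinRepStable16.minRepStable S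

/-- `T1a` from `U`. -/
theorem coordUpper (hU : S.MasterUD) : S.CoordUpper :=
  Fermat.Agent.MW.Global.CoordUpper62.coordUpper S hU
    (Fermat.Agent.MW.Global.PairBasic2.pairFiniteSupport S)

/-- `AD` from `U`. -/
theorem adjunctionLower (hU : S.MasterUD) : S.AdjunctionLower :=
  Fermat.Agent.MW.Global.AdjLower49.adjunctionLower S hU (coordUpper S hU)
    (Fermat.Agent.MW.Spec.Assemble2.epsComparison S hU)

/-- `T1` from `U`. -/
theorem northcottHn (hU : S.MasterUD) : S.NorthcottHn :=
  Fermat.Agent.MW.Spec.Assemble2.northcottHn S hU (minRepExists S) (minRepStable S)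

/-- `P3` from `U` and `HD`. -/
theorem positivity (hU : S.MasterUD) (hHD : S.HadamardUpper) : S.Positivity :=
  Fermat.Agent.MW.Global.Positivity2.positivityP3 S hHD (adjunctionLower S hU) (minRepExists S)
    (minRepStable S)

/-- `QP` from `U` and `P1c`. -/
theorem quasiParallelogram (hU : S.MasterUD) (hP1c : S.RationalGenerator) :
    S.QuasiParallelogram :=
  Fermat.Agent.MW.Global.QuasiPar2.quasiParallelogram S (minRepExists S) (minRepStable S) hP1c
    (Fermat.Agent.MW.Spec.Assemble2.globalUD S hU)

end General

/-- **Third-layer assembly**: the height contract from `X`, `U`, `HD`, `P1c`. -/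
theorem heightMain_of_open (N : ℕ)
    [HasCanonicalDivisor (K := Qb) (F := ↥(modularFunctionFieldBar N))]
    (S : HSetup ↥(modularFunctionFieldBar N))
    (hγ : S.γ = arithmeticGalois (modularFunctionFieldFull N))
    (hU : S.MasterUD) (hHD : S.HadamardUpper) (hP1c : S.RationalGenerator) : HeightMain N :=
  Fermat.Agent.MW.Spec.Assemble7.heightMain_of_top N S hγ (quasiParallelogram S hU hP1c)
    (positivity S hU hHD) (northcottHn S hU)

/-- Mordell-Weil for `J₀(N)(ℚ)` from weak Mordell-Weil and the open height bricks. -/
theorem fg_of_open (N : ℕ)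
    [HasCanonicalDivisor (K := Qb) (F := ↥(modularFunctionFieldBar N))]
    (S : HSetup ↥(modularFunctionFieldBar N))
    (hγ : S.γ = arithmeticGalois (modularFunctionFieldFull N))
    (hU : S.MasterUD) (hHD : S.HadamardUpper) (hP1c : S.RationalGenerator) (hW : WeakMW2 N) :
    AddGroup.FG ↥(FixedPoints.addSubgroup Top7.GQ (JZero N)) :=
  fg_of_contracts N hW (heightMain_of_open N S hγ hU hHD hP1c)

end Fermat.Agent.MW.Final.HeightWiring80
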