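/-
Program MW-H (S17), INTEGRATION, fourth layer (helper7), continuation of helper80's
`Final/HeightWiring80`.

With the master theorem `U` (`Master/MasterU7.masterUD`) and `P1c` (`Global/RatGen49`) landed, the
height contract `Top7.HeightMain N` needs only

* `X`  : the standing data `S : HSetup (modularFunctionFieldBar N)` with the arithmetic action;
* `HD` : `S.HadamardUpper`.
-/
import Mathlib
import Fermat.Agent.MW.Final.HeightWiring80
import Fermat.Agent.MW.Master.MasterU7
import Fermat.Agent.MW.Global.RatGen49

set_option autoImplicit false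

open AlgebraicCurve ModularCurve

namespace Fermat.Agent.MW.Final.HeightWiring7

open Fermat.Agent.MW.Spec.Bricks7b Fermat.Agent.MW.Top7

/-- **Fourth-layer assembly**: the height contract from `X` and `HD`. -/
theorem heightMain_of_X_HD (N : ℕ)
    [HasCanonicalDivisor (K := Qb) (F := ↥(modularFunctionFieldBar N))]
    (S : HSetup ↥(modularFunctionFieldBar N))
    (hγ : S.γ = arithmeticGalois (modularFunctionFieldFull N))
    (hHD : S.HadamardUpper) : HeightMain N :=
  Fermat.Agent.MW.Final.HeightWiring80.heightMain_of_open N S hγ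
    (Fermat.Agent.MW.Master.MasterU7.masterUD S) hHD
    (Fermat.Agent.MW.Global.RatGen49.rationalGenerator S)

/-- Mordell-Weil for `J₀(N)(ℚ)` from weak Mordell-Weil, `X` and `HD`. -/
theorem fg_of_X_HD_W (N : ℕ)
    [HasCanonicalDivisor (K := Qb) (F := ↥(modularFunctionFieldBar N))]
    (S : HSetup ↥(modularFunctionFieldBar N))
    (hγ : S.γ = arithmeticGalois (modularFunctionFieldFull N))
    (hHD : S.HadamardUpper) (hW : WeakMW2 N) :
    AddGroup.FG ↥(FixedPoints.addSubgroup Top7.GQ (JZero N)) :=
  fg_of_contracts N hW (heightMain_of_X_HD N S hγ hHD)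

end Fermat.Agent.MW.Final.HeightWiring7
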