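/-
Program MW-H (S17): END-TO-END STATUS FILE (helper7, architect).

`s17_of_open` proves the statement of S17 (Mordell-Weil for `J₀(N)(ℚ)`) from the contracts which
are still open.  Updated whenever a contract is discharged; history:

* 2026-12-05 03:56Z  `X` (standing data) closed: `Inst/HSetupExists30.hSetupExists` (helper30).
* 2026-12-05 03:45Z  `U` (master theorem) closed: `Master/MasterU7.masterUD`.
* 2026-12-05 03:35Z  `P1c` closed: `Global/RatGen49.rationalGenerator`.

OPEN (owners in team report #590):
* `HD` : the global Hadamard upper bound `S.HadamardUpper`;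
* `W`  : weak Mordell-Weil for `m = 2` (reduced by `MW/Weak` to the 2-divisibility of `J₀(N)(ℚ̄)`).
-/
import Mathlib
import Fermat.Agent.MW.Final.HeightWiring7
import Fermat.Agent.X0.HasCanDivInst
import Fermat.Agent.MW.Inst.HSetupExists30

set_option autoImplicit false

open AlgebraicCurve ModularCurve

namespace Fermat.Agent.MW.Final.Status7

open Fermat.Agent.MW.Spec.Bricks7b Fermat.Agent.MW.Top7

/-- **S17 from the open contracts** (literally the frozen statement, `N` arbitrary):
`hX` = the standing data exist, `hHD` = the global Hadamard upper bound, `hW` = weak Mordell-Weil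
for `m = 2`. -/
theorem s17_of_open (N : ℕ) [NeZero N]
    (hX : ∀ [HasCanonicalDivisor (K := Qb) (F := ↥(modularFunctionFieldBar N))],
      ∃ S : HSetup ↥(modularFunctionFieldBar N),
        S.γ = arithmeticGalois (modularFunctionFieldFull N))
    (hHD : ∀ [HasCanonicalDivisor (K := Qb) (F := ↥(modularFunctionFieldBar N))]
      (S : HSetup ↥(modularFunctionFieldBar N)), S.HadamardUpper)
    (hW : WeakMW2 N) :
    AddGroup.FG ↥(FixedPoints.addSubgroup
      ((AlgebraicClosure ℚ) ≃ₐ[ℚ] (AlgebraicClosure ℚ)) (JZero N)) := by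
  have : HasCanonicalDivisor (K := Qb) (F := ↥(modularFunctionFieldBar N)) :=
    Fermat.Agent.X0.HasCanDivInst.hasCanonicalDivisor' N
  obtain ⟨S, hγ⟩ := hX
  exact HeightWiring7.fg_of_X_HD_W N S hγ (hHD S) hW

/-- **S17 from the open contracts `HD` and `W`** (current state). -/
theorem s17_of_HD_W (N : ℕ) [NeZero N]
    (hHD : ∀ [HasCanonicalDivisor (K := Qb) (F := ↥(modularFunctionFieldBar N))]
      (S : HSetup ↥(modularFunctionFieldBar N)), S.HadamardUpper)
    (hW : WeakMW2 N) :
    AddGroup.FG ↥(FixedPoints.addSubgroup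
      ((AlgebraicClosure ℚ) ≃ₐ[ℚ] (AlgebraicClosure ℚ)) (JZero N)) :=
  s17_of_open N (Fermat.Agent.MW.Inst.HSetupExists30.hSetupExists N) hHD hW

end Fermat.Agent.MW.Final.Status7
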