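/-
Program MW-H (S17): THE HEIGHT CONTRACT, UNCONDITIONAL (helper7, architect).

`heightMain N : Top7.HeightMain N`: on `J₀(N)(ℚ)` there is a nonnegative function satisfying the
parallelogram law up to a constant and with finite sublevel sets.  Assembly of all the bricks of
program MW-H (see `Final/HeightWiring80`, `Final/HeightWiring7`, `Final/Status7`):

* `X`  : `Inst/HSetupExists30.hSetupExists` (helper30);
* `U`  : `Master/MasterU7.masterUD` (helper7 + helper48/49/51/61/62/75/80/86);
* `HD` : `Global/HadamardUpper86.hadamardUpper` (helper86 + helper48/82);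
* the global layer of helper2, helper16, helper49, helper62, helper74, helper80.

Consequently Mordell-Weil for `J₀(N)(ℚ)` (S17) is reduced to weak Mordell-Weil for `m = 2`.
-/
import Mathlib
import Fermat.Agent.MW.Final.Status7
import Fermat.Agent.MW.Global.HadamardUpper86

set_option autoImplicit false

open AlgebraicCurve ModularCurve

namespace Fermat.Agent.MW.Final.HeightMain7

open Fermat.Agent.MW.Spec.Bricks7b Fermat.Agent.MW.Top7

/-- **The height contract**, unconditional. -/
theorem heightMain (N : ℕ) [NeZero N] : HeightMain N := by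
  have : HasCanonicalDivisor (K := Qb) (F := ↥(modularFunctionFieldBar N)) :=
    Fermat.Agent.X0.HasCanDivInst.hasCanonicalDivisor' N
  obtain ⟨S, hγ⟩ := Fermat.Agent.MW.Inst.HSetupExists30.hSetupExists N
  exact HeightWiring7.heightMain_of_X_HD N S hγ
    (Fermat.Agent.MW.Global.HadamardUpper86.hadamardUpper S)

/-- **S17 from weak Mordell-Weil for `m = 2`** (literally the frozen statement, `N` arbitrary). -/
theorem s17_of_weakMW2 (N : ℕ) [NeZero N] (hW : WeakMW2 N) :
    AddGroup.FG ↥(FixedPoints.addSubgroup
      ((AlgebraicClosure ℚ) ≃ₐ[ℚ] (AlgebraicClosure ℚ)) (JZero N)) :=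
  fg_of_contracts N hW (heightMain N)

end Fermat.Agent.MW.Final.HeightMain7
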