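/-
Program MW-H (S17), INTEGRATION, fourth layer (helper80).

`Top7.HeightMain N` (and Mordell-Weil itself, given weak Mordell-Weil) from the only contracts which
are still open on 2026-12-05 04:30Z:

* `X`   : the standing data `S : HSetup (modularFunctionFieldBar N)` with the arithmetic action;
* `HD`  : `S.HadamardUpper`.

New with respect to `Final/HeightWiring80`: `U` is discharged by helper7's
`Master/MasterU7.masterUD` and `P1c` by helper49's `Global/RatGen49.rationalGenerator`.
Nothing new is proved: the file checks that the landed pieces fit together literally.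
-/
import Mathlib
import Fermat.Agent.MW.Final.HeightWiring80
import Fermat.Agent.MW.Master.MasterU7
import Fermat.Agent.MW.Global.RatGen49

set_option autoImplicit false

open AlgebraicCurve ModularCurve

namespace Fermat.Agent.MW.Final.HeightWiring80b

open Fermat.Agent.MW.Spec.Bricks7b Fermat.Agent.MW.Top7

section General

variable {F : Type} [Field F] [Algebra Qb F] [HasCanonicalDivisor (K := Qb) (F := F)]
variable (S : HSetup F)

/-- `U`, unconditional (helper7). -/
theorem masterUD : S.MasterUD := Fermat.Agent.MW.Master.MasterU7.masterUD S

/-- `P1c`, unconditional (helper49). -/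
theorem rationalGenerator : S.RationalGenerator :=
  Fermat.Agent.MW.Global.RatGen49.rationalGenerator S

/-- `T1a`, unconditional. -/
theorem coordUpper : S.CoordUpper := HeightWiring80.coordUpper S (masterUD S)

/-- `AD`, unconditional. -/
theorem adjunctionLower : S.AdjunctionLower := HeightWiring80.adjunctionLower S (masterUD S)

/-- `T1`, unconditional. -/
theorem northcottHn : S.NorthcottHn := HeightWiring80.northcottHn S (masterUD S)

/-- `QP`, unconditional. -/
theorem quasiParallelogram : S.QuasiParallelogram :=
  HeightWiring80.quasiParallelogram S (masterUD S) (rationalGenerator S)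

/-- `P3` from `HD`. -/
theorem positivity (hHD : S.HadamardUpper) : S.Positivity :=
  HeightWiring80.positivity S (masterUD S) hHD

end General

/-- **Fourth-layer assembly**: the height contract from `X` and `HD` only. -/
theorem heightMain_of_open (N : ℕ)
    [HasCanonicalDivisor (K := Qb) (F := ↥(modularFunctionFieldBar N))]
    (S : HSetup ↥(modularFunctionFieldBar N))
    (hγ : S.γ = arithmeticGalois (modularFunctionFieldFull N))
    (hHD : S.HadamardUpper) : HeightMain N :=
  HeightWiring80.heightMain_of_open N S hγ (masterUD S) hHD (rationalGenerator S)

/-- Mordell-Weil for `J₀(N)(ℚ)` from weak Mordell-Weil, `X` and `HD`. -/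
theorem fg_of_open (N : ℕ)
    [HasCanonicalDivisor (K := Qb) (F := ↥(modularFunctionFieldBar N))]
    (S : HSetup ↥(modularFunctionFieldBar N))
    (hγ : S.γ = arithmeticGalois (modularFunctionFieldFull N))
    (hHD : S.HadamardUpper) (hW : WeakMW2 N) :
    AddGroup.FG ↥(FixedPoints.addSubgroup Top7.GQ (JZero N)) :=
  fg_of_contracts N hW (heightMain_of_open N S hγ hHD)

end Fermat.Agent.MW.Final.HeightWiring80b
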